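/-
S56 / block SEL-ARITH (chief helper182): from the abstract `2 × 2` theorem (SEL-CORE) to
Taylor-Wiles primes.  DEFINITIONS.

`r : GQ →* M₂(k)` = `resMatOf ρbar b`, `Hn p n` = `Gal(ℚ̄ / ℚ(ζ_{p^(n+1)}))`,
`Nd r p = Hom(ad⁰, μ_p)`.  All nodes are stated with the results of the other nodes as hypotheses
(the `Prop`s below), so that every leaf is independent.
-/
import Fermat.Agent.S56.Defs
import Fermat.Agent.S55.BR.Cyc
import Fermat.Agent.S55.Bridge.Glue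

set_option autoImplicit false

namespace Fermat.Agent.S56.Sel.Arith

open Fermat.Agent.S55
open Fermat.Agent.S53 (M2 resMatOf)
open Matrix ExtCitation

/-- `Gal(ℚ̄ / ℚ(ζ_{p^(n+1)}))`. -/
noncomputable def Hn (p n : ℕ) [Fact p.Prime] : Subgroup GQ :=
  haveI : NeZero (p ^ (n + 1)) := ⟨pow_ne_zero _ (Fact.out : p.Prime).ne_zero⟩
  (BR.cycN (p ^ (n + 1))).ker

variable {k : Type} [Field k]

/-- the discriminant of the characteristic polynomial -/
def dsc (A : M2 k) : k := A.trace ^ 2 - 4 * A.det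

/-- no line of `k²` is stable under `r G₁` -/
def NoLine (r : GQ →* M2 k) (G₁ : Subgroup GQ) : Prop :=
  ∀ v : Fin 2 → k, v ≠ 0 → ∃ g ∈ G₁, ∀ c : k, (r g) *ᵥ v ≠ c • v

/-- The properties of the matrix representation used by the core. -/
structure RepHyp (p : ℕ) [Fact p.Prime] (r : GQ →* M2 k) : Prop where
  split : ∀ g, ∃ α β : k, (r g).trace = α + β ∧ (r g).det = α * β
  irr : NoLine r ⊤
  irr2 : ∀ G₁ : Subgroup GQ, G₁.index = 2 → NoLine r G₁
  det : ∀ g, (r g).det = ((((cycloChar p g : (ZMod p)ˣ) : ZMod p).val : ℕ) : k)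

/-- twisted cocycles with values in trace zero matrices -/
structure IsTwCoc (r : GQ →* M2 k) (Y : GQ → M2 k) : Prop where
  tr : ∀ g, (Y g).trace = 0
  coc : ∀ g h, Y (g * h) = Y g + (r g).det • (r g * Y h * r g⁻¹)

/-- twisted coboundaries -/
def IsTwCob (r : GQ →* M2 k) (Y : GQ → M2 k) : Prop :=
  ∃ X : M2 k, X.trace = 0 ∧ ∀ g, Y g = (r g).det • (r g * X * r g⁻¹) - X

/-- **What SEL-ARITH needs from SEL-CORE** (in neutral language; proved from either core by a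
ten line adapter). -/
def CoreOut (p : ℕ) [Fact p.Prime] (k : Type) [Field k] : Prop :=
  ∀ (r : GQ →* M2 k) (n : ℕ), RepHyp p r → ∀ Y : GQ → M2 k, IsTwCoc r Y → ¬ IsTwCob r Y →
    ∃ s ∈ Hn p n, dsc (r s) ≠ 0 ∧ ∀ X : M2 k, Y s ≠ (r s).det • (r s * X * r s⁻¹) - X

/-- trace duality `Hom(ad⁰, μ_p) ≅ ad⁰ ⊗ det` -/
def HasDual (p : ℕ) (r : GQ →* M2 k) : Prop :=
  ∃ Ψ : Nd r p →+ M2 k, Function.Injective Ψ ∧ (∀ f, (Ψ f).trace = 0) ∧
    (∀ X : M2 k, X.trace = 0 → ∃ f, Ψ f = X) ∧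
    ∀ (g : GQ) (f : Nd r p), Ψ (g • f) = (r g).det • (r g * Ψ f * r g⁻¹)

/-- `c φ` is a coboundary on the cyclic group generated by `φ`. -/
def LocTriv {A : Type} [AddCommGroup A] [DistribMulAction GQ A] (c : GQ → A) (φ : GQ) : Prop :=
  ∃ x : A, c φ = φ • x - x

/-- `φ` and `s` generate conjugate cyclic subgroups of `Gal(L/ℚ)`. -/
def SameGen (L : IntermediateField ℚ Qb) (φ s : GQ) : Prop :=
  ∃ (g : GQ) (a b : ℕ), (∀ x ∈ L, (g * φ * g⁻¹) x = (s ^ a) x) ∧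
    (∀ x ∈ L, ((g * φ * g⁻¹) ^ b) x = s x)

end Fermat.Agent.S56.Sel.Arith
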