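/-
S56 / block SEL-ARITH, node AR7: weak Chebotarev for ALL places and ALL Frobenius elements over `q`.
-/
import Fermat.Agent.S56.Sel.Arith.Defs
import Fermat.Agent.Lib.FrobDensity
import Fermat.Agent.S55.Units.Conj

set_option autoImplicit false

namespace Fermat.Agent.S56.Sel.Arith

open Fermat.Agent.S55
open Fermat.Agent.S53 (M2 resMatOf)
open Matrix ExtCitation Polynomial
open scoped Pointwise

namespace Cheb

variable {K L : Type*} [Field K] [Field L] [Algebra K L]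

theorem mem_nonunits_iff_lt (A : ValuationSubring L) (x : L) :
    x ∈ A.nonunits ↔ A.valuation x < 1 := A.mem_nonunits_iff

theorem mem_nonunits_smul_iff (g : L ≃ₐ[K] L) (A : ValuationSubring L) (x : L) :
    x ∈ (g • A).nonunits ↔ g⁻¹ x ∈ A.nonunits := by
  have key : ∀ (B : ValuationSubring L) (y : L), y ∈ B.nonunits ↔ (y = 0 ∨ y⁻¹ ∉ B) := by
    intro B y
    rw [B.mem_nonunits_iff]
    by_cases hy : y = 0
    · simp [hy]
    · rw [← not_le, ← B.valuation_le_one_iff, map_inv₀]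
      simp only [hy, false_or, not_iff_not]
      have h0 : B.valuation y ≠ 0 := (B.valuation.ne_zero_iff).2 hy
      rw [inv_le_one₀ (zero_lt_iff.2 h0)]
  rw [key, key, ValuationSubring.mem_pointwise_smul_iff_inv_smul_mem]
  have h1 : g⁻¹ x = 0 ↔ x = 0 := map_eq_zero_iff _ (g⁻¹).injective
  have h2 : g⁻¹ • x⁻¹ = (g⁻¹ x)⁻¹ := map_inv₀ (g⁻¹) x
  rw [h1, h2]

theorem isFrobeniusAt_iff (A : ValuationSubring L) (σ : L ≃ₐ[K] L) (q : ℕ) :
    A.IsFrobeniusAt σ q ↔
      σ ∈ A.decompositionSubgroup K ∧ ∀ x ∈ A, σ x - x ^ q ∈ A.nonunits := by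
  constructor
  · rintro ⟨hdec, hφ⟩
    refine ⟨hdec, fun x hx => ?_⟩
    have h1 := hφ (IsLocalRing.residue A ⟨x, hx⟩)
    rw [← IsLocalRing.ResidueField.residue_smul, ← map_pow, ← sub_eq_zero, ← map_sub,
      IsLocalRing.residue_eq_zero_iff, A.valuation_lt_one_iff] at h1
    rw [A.mem_nonunits_iff]
    exact h1
  · rintro ⟨hdec, h⟩
    refine ⟨hdec, fun x => ?_⟩
    obtain ⟨⟨y, hy⟩, rfl⟩ := IsLocalRing.residue_surjective x
    rw [← IsLocalRing.ResidueField.residue_smul, ← map_pow, ← sub_eq_zero, ← map_sub,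
      IsLocalRing.residue_eq_zero_iff, A.valuation_lt_one_iff]
    have := h y hy
    rw [A.mem_nonunits_iff] at this
    exact this

theorem conj_mem_decompositionSubgroup (A : ValuationSubring L) (σ τ : L ≃ₐ[K] L)
    (h : σ ∈ A.decompositionSubgroup K) :
    τ * σ * τ⁻¹ ∈ (τ • A).decompositionSubgroup K := by
  change (τ * σ * τ⁻¹) • (τ • A) = τ • A
  rw [smul_smul, inv_mul_cancel_right, mul_smul, show σ • A = A from h]

theorem isFrobeniusAt_conj (A : ValuationSubring L) (σ τ : L ≃ₐ[K] L) (q : ℕ)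
    (h : A.IsFrobeniusAt σ q) : (τ • A).IsFrobeniusAt (τ * σ * τ⁻¹) q := by
  rw [isFrobeniusAt_iff] at h ⊢
  refine ⟨conj_mem_decompositionSubgroup A σ τ h.1, fun x hx => ?_⟩
  rw [ValuationSubring.mem_pointwise_smul_iff_inv_smul_mem] at hx
  rw [mem_nonunits_smul_iff, map_sub, map_pow]
  have h1 := h.2 _ hx
  have h2 : τ⁻¹ ((τ * σ * τ⁻¹) x) = σ (τ⁻¹ • x) := by
    change τ⁻¹ (τ (σ (τ⁻¹ x))) = σ (τ⁻¹ x)
    exact τ.symm_apply_apply _
  rw [h2]
  exact h1

end Cheb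

/-- weak Chebotarev for ALL places and ALL Frobenius elements over `q` -/
theorem exists_prime_sameGen (L : IntermediateField ℚ Qb) [FiniteDimensional ℚ L] (s : GQ)
    (T : Finset ℕ) :
    ∃ q : ℕ, q.Prime ∧ q ∉ T ∧ ∀ P : ValuationSubring Qb, P.LiesOverPrime q →
      ∀ φ : GQ, P.IsFrobeniusAt φ q → SameGen L φ s := by
  obtain ⟨q, A, hq, hqT, hA, -, hall⟩ := Fermat.Agent.Lib.FrobDensity.exists_frobenius_generator' L s T
  refine ⟨q, hq, hqT, fun P hP φ hφ => ?_⟩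
  obtain ⟨g, hg⟩ := Units.exists_smul_eq_of_liesOver q hq P A hP hA
  have h1 : A.IsFrobeniusAt (g * φ * g⁻¹) q := by
    rw [← hg]
    exact Cheb.isFrobeniusAt_conj P φ g q hφ
  obtain ⟨a, b, ha, hb⟩ := hall _ h1
  exact ⟨g, a, b, ha, hb⟩

end Fermat.Agent.S56.Sel.Arith
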