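/-
S56 / block SEL-ARITH (chief helper182), node AR4 (proof: helper190):
elementary facts on the cyclotomic characters and on `Hn p n = Gal(ℚ̄ / ℚ(ζ_{p^(n+1)}))`.
-/
import Fermat.Agent.S56.Sel.Arith.Defs

set_option autoImplicit false

namespace Fermat.Agent.S56.Sel.Arith

open Fermat.Agent.S55
open Fermat.Agent.S53 (M2 resMatOf)
open Matrix ExtCitation Polynomial

variable {k : Type} [Field k]

namespace Hn

theorem neZero_pow (p n : ℕ) [Fact p.Prime] : NeZero (p ^ (n + 1)) :=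
  ⟨pow_ne_zero _ (Fact.out : p.Prime).ne_zero⟩

theorem neZero_p (p : ℕ) [Fact p.Prime] : NeZero p := ⟨(Fact.out : p.Prime).ne_zero⟩

theorem mem_iff (p n : ℕ) [Fact p.Prime] (σ : GQ) :
    σ ∈ Arith.Hn p n ↔ ∀ x : Qb, x ^ (p ^ (n + 1)) = 1 → σ x = x := by
  have := neZero_pow p n
  rw [← BR.cycN_eq_one_iff]
  exact MonoidHom.mem_ker

theorem mem_iff' (p n : ℕ) [Fact p.Prime] [NeZero (p ^ (n + 1))] (σ : GQ) :
    σ ∈ Arith.Hn p n ↔ BR.cycN (p ^ (n + 1)) σ = 1 := by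
  rw [mem_iff, BR.cycN_eq_one_iff]

/-- the two mod `p` cyclotomic characters agree. -/
theorem cycN_eq_cycloChar (p : ℕ) [Fact p.Prime] [NeZero p] (σ : GQ) :
    BR.cycN p σ = cycloChar p σ := by
  apply Units.ext
  rw [BR.cycN_eq_of_forall p σ ((cycloChar p σ : (ZMod p)ˣ) : ZMod p).val
    (fun x hx => Bridge.cycloChar_spec σ x hx), ZMod.natCast_val, ZMod.cast_id', id]

end Hn

theorem Hn_normal (p n : ℕ) [Fact p.Prime] : (Hn p n).Normal := by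
  have := Hn.neZero_pow p n
  exact MonoidHom.normal_ker (BR.cycN (p ^ (n + 1)))

theorem cycloChar_eq_one_of_mem_Hn (p n : ℕ) [Fact p.Prime] {σ : GQ} (h : σ ∈ Hn p n) :
    cycloChar p σ = 1 := by
  have := Hn.neZero_p p
  rw [← Hn.cycN_eq_cycloChar, BR.cycN_eq_one_iff]
  intro x hx
  refine (Hn.mem_iff p n σ).1 h x ?_
  rw [pow_succ', pow_mul, hx, one_pow]

theorem Hn_cyclic (p n : ℕ) [Fact p.Prime] (hp2 : p ≠ 2) :
    ∃ γ : GQ, ∀ g : GQ, ∃ (i : ℕ) (h : GQ), h ∈ Hn p n ∧ g = γ ^ i * h := by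
  have := Hn.neZero_pow p n
  have : IsCyclic (ZMod (p ^ (n + 1)))ˣ :=
    ZMod.isCyclic_units_of_prime_pow p (Fact.out : p.Prime) hp2 (n + 1)
  obtain ⟨u, hu⟩ := IsCyclic.exists_monoid_generator (α := (ZMod (p ^ (n + 1)))ˣ)
  obtain ⟨γ, rfl⟩ := BR.cycN_surjective (p ^ (n + 1)) u
  refine ⟨γ, fun g => ?_⟩
  obtain ⟨i, hi⟩ := Submonoid.mem_powers_iff _ _ |>.1 (hu (BR.cycN (p ^ (n + 1)) g))
  refine ⟨i, (γ ^ i)⁻¹ * g, ?_, by group⟩
  rw [Hn.mem_iff', map_mul, map_inv, map_pow, hi, inv_mul_cancel]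

theorem cycloChar_surjective (p : ℕ) [Fact p.Prime] : Function.Surjective (cycloChar p) := by
  have := Hn.neZero_p p
  intro u
  obtain ⟨σ, hσ⟩ := BR.cycN_surjective p u
  exact ⟨σ, by rw [← Hn.cycN_eq_cycloChar, hσ]⟩

theorem exists_nonsquare (p : ℕ) [Fact p.Prime] (hp2 : p ≠ 2) [CharP k p] :
    ∃ g : GQ, ∀ m : ℕ,
      ((((cycloChar p g : (ZMod p)ˣ) : ZMod p).val : ℕ) : k) ≠ (m : k) ^ 2 := by
  have := Hn.neZero_p p
  obtain ⟨a, ha⟩ := FiniteField.exists_nonsquare (F := ZMod p) (by rwa [ZMod.ringChar_zmod_n])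
  have ha0 : a ≠ 0 := by
    rintro rfl
    exact ha ⟨0, by simp⟩
  obtain ⟨g, hg⟩ := cycloChar_surjective p (Units.mk0 a ha0)
  refine ⟨g, fun m hm => ha ⟨(m : ZMod p), ?_⟩⟩
  rw [hg, Units.val_mk0] at hm
  have h1 : ((a.val : ℕ) : k) = ((m ^ 2 : ℕ) : k) := by rw [hm]; push_cast; rfl
  rw [CharP.natCast_eq_natCast k p, ← ZMod.natCast_eq_natCast_iff] at h1
  rw [ZMod.natCast_val, ZMod.cast_id', id] at h1
  rw [h1]
  push_cast
  ring

theorem Hn_level (p n : ℕ) [Fact p.Prime] :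
    ∃ F : IntermediateField ℚ Qb, FiniteDimensional ℚ F ∧ F.fixingSubgroup ≤ Hn p n := by
  have := Hn.neZero_pow p n
  obtain ⟨F, hF, -, h⟩ := BR.cycN_level (p ^ (n + 1))
  exact ⟨F, hF, fun σ hσ => (Hn.mem_iff' p n σ).2 (h σ hσ)⟩

/-- a Frobenius element at `q ≠ p` lying in `Hn p n` forces `q ≡ 1 mod p^(n+1)` -/
theorem dvd_sub_one_of_frob_mem_Hn (p n : ℕ) [Fact p.Prime] {q : ℕ} (hq : q.Prime) (hqp : q ≠ p)
    (P : ValuationSubring Qb) (hP : P.LiesOverPrime q) {φ : GQ} (hφ : P.IsFrobeniusAt φ q)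
    (h : φ ∈ Hn p n) : p ^ (n + 1) ∣ q - 1 := by
  have := Hn.neZero_pow p n
  have hndvd : ¬ q ∣ p ^ (n + 1) := fun hd =>
    hqp ((Nat.prime_dvd_prime_iff_eq hq (Fact.out : p.Prime)).1 (hq.dvd_of_dvd_pow hd))
  have h1 := BR.cycN_frob (p ^ (n + 1)) hq hndvd P hP hφ
  rw [(Hn.mem_iff' p n φ).1 h, Units.val_one] at h1
  have h2 : ((1 : ℕ) : ZMod (p ^ (n + 1))) = (q : ZMod (p ^ (n + 1))) := by
    rw [Nat.cast_one]; exact h1
  rw [ZMod.natCast_eq_natCast_iff] at h2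
  exact (Nat.modEq_iff_dvd' hq.one_le).1 h2

end Fermat.Agent.S56.Sel.Arith
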