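/-
S56 / SEL-ARITH : `CoreOut` from SEL-CORE (`Sel/Core/Main.lean`).
-/
import Fermat.Agent.S56.Sel.Core.Main
import Fermat.Agent.S56.Sel.Arith.Hn

set_option autoImplicit false

namespace Fermat.Agent.S56.Sel.Arith

open Fermat.Agent.S55
open Matrix ExtCitation

variable {k : Type} [Field k]

theorem det_eq_one_of_mem_Hn (p n : ℕ) [Fact p.Prime] {r : GQ →* Matrix (Fin 2) (Fin 2) k}
    (hr : RepHyp p r) {σ : GQ} (h : σ ∈ Hn p n) : (r σ).det = 1 := by
  have : Fact (1 < p) := ⟨(Fact.out : p.Prime).one_lt⟩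
  rw [hr.det, cycloChar_eq_one_of_mem_Hn p n h, Units.val_one, ZMod.val_one, Nat.cast_one]

/-- the `Core` attached to `r` and `n` -/
noncomputable def coreOf (p n : ℕ) [Fact p.Prime] (hp2 : p ≠ 2) [CharP k p]
    (r : GQ →* Matrix (Fin 2) (Fin 2) k) (hr : RepHyp p r) : Sel.Core k GQ where
  ρ := r
  G' := Hn p n
  normal := Hn_normal p n
  det_one := fun _ h => det_eq_one_of_mem_Hn p n hr h
  cyc := by
    obtain ⟨γ, hγ⟩ := Hn_cyclic p n hp2
    refine ⟨γ, fun g => ?_⟩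
    obtain ⟨i, h, hh, rfl⟩ := hγ g
    refine ⟨-(i : ℤ), ?_⟩
    rw [_root_.zpow_neg, zpow_natCast, inv_mul_cancel_left]
    exact hh
  irr := by
    rintro H (rfl | hH) v ⟨hv, h⟩
    · obtain ⟨g, hg, hc⟩ := hr.irr v hv
      obtain ⟨c, hc'⟩ := h g hg
      exact hc c hc'
    · obtain ⟨g, hg, hc⟩ := hr.irr2 H hH v hv
      obtain ⟨c, hc'⟩ := h g hg
      exact hc c hc'
  split := hr.split
  g0 := (exists_nonsquare (k := k) p hp2).choose
  g0_ns := fun m => by
    rw [hr.det]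
    exact ((exists_nonsquare (k := k) p hp2).choose_spec m).symm

theorem coreOut (p : ℕ) [Fact p.Prime] (hp2 : p ≠ 2) [CharP k p] : CoreOut p k := by
  intro r n hr Y hY hnc
  let c : Sel.Coc (coreOf p n hp2 r hr) := ⟨Y, hY.tr, hY.coc⟩
  obtain ⟨s, hs, hd, ht⟩ := c.exists_of_not_isCob p hp2 hnc
  have h1 : (r s).det = 1 := det_eq_one_of_mem_Hn p n hr hs
  refine ⟨s, hs, ?_, fun X hX => ht X ?_⟩
  · intro h
    apply hd
    change (r s).trace ^ 2 = 4
    unfold dsc at h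
    rw [h1] at h
    linear_combination h
  · change Y s = r s * X * r s⁻¹ - X
    rw [hX, h1, one_smul]

end Fermat.Agent.S56.Sel.Arith
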