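/-
S56 / block SEL-ARITH, node AR6 (task SEL-AR6, helper233): pure cocycle formalism for `LocTriv`.
-/
import Fermat.Agent.S56.Sel.Arith.Defs

set_option autoImplicit false

namespace Fermat.Agent.S56.Sel.Arith

open Fermat.Agent.S55
open Fermat.Agent.S53 (M2 resMatOf)
open Matrix ExtCitation Polynomial

variable {k : Type} [Field k]

section Cyclic

variable {A : Type} [AddCommGroup A] [DistribMulAction GQ A]

theorem Cyclic.coc_one {c : GQ → A} (hc : ∀ g h, c (g * h) = c g + g • c h) : c 1 = 0 := by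
  have h := hc 1 1
  rw [mul_one, one_smul] at h
  exact add_eq_left.mp h.symm

theorem Cyclic.coc_inv {c : GQ → A} (hc : ∀ g h, c (g * h) = c g + g • c h) (g : GQ) :
    c g⁻¹ = -(g⁻¹ • c g) := by
  have h := hc g⁻¹ g
  rw [inv_mul_cancel, Cyclic.coc_one hc] at h
  exact eq_neg_of_add_eq_zero_left h.symm

theorem LocTriv.pow {c : GQ → A} (hc : ∀ g h, c (g * h) = c g + g • c h) {φ : GQ} {x : A}
    (h : c φ = φ • x - x) (j : ℕ) : c (φ ^ j) = φ ^ j • x - x := by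
  induction j with
  | zero => rw [pow_zero, one_smul, sub_self, Cyclic.coc_one hc]
  | succ j ih =>
    rw [pow_succ, hc, ih, h, smul_sub, mul_smul]
    abel

theorem Cyclic.locTriv_conj {c : GQ → A} (hc : ∀ g h, c (g * h) = c g + g • c h) (g φ : GQ)
    (h : LocTriv c φ) : LocTriv c (g * φ * g⁻¹) := by
  obtain ⟨x, hx⟩ := h
  refine ⟨g • x - c g, ?_⟩
  rw [hc, hc, hx, Cyclic.coc_inv hc]
  simp only [mul_smul, smul_sub, smul_neg, inv_smul_smul]
  abel

theorem locTriv_conj_iff {c : GQ → A} (hc : ∀ g h, c (g * h) = c g + g • c h) (g φ : GQ) :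
    LocTriv c (g * φ * g⁻¹) ↔ LocTriv c φ := by
  refine ⟨fun h => ?_, Cyclic.locTriv_conj hc g φ⟩
  have h1 := Cyclic.locTriv_conj hc g⁻¹ _ h
  have h2 : g⁻¹ * (g * φ * g⁻¹) * g⁻¹⁻¹ = φ := by group
  rwa [h2] at h1

/-- `LocTriv` only depends on the conjugacy class of the cyclic group generated in `Gal(L/ℚ)` -/
theorem locTriv_of_sameGen {c : GQ → A} (hc : ∀ g h, c (g * h) = c g + g • c h)
    (L : IntermediateField ℚ Qb)
    (hL : ∀ σ ∈ L.fixingSubgroup, c σ = 0 ∧ ∀ a : A, σ • a = a) {φ s : GQ} (h : SameGen L φ s)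
    (hφ : LocTriv c φ) : LocTriv c s := by
  obtain ⟨g, a, b, -, hb⟩ := h
  obtain ⟨x, hx⟩ := Cyclic.locTriv_conj hc g φ hφ
  have hpow := LocTriv.pow hc hx b
  have hκ : ((g * φ * g⁻¹) ^ b)⁻¹ * s ∈ L.fixingSubgroup := by
    rw [IntermediateField.mem_fixingSubgroup_iff]
    intro y hy
    rw [AlgEquiv.mul_apply, ← hb y hy, ← AlgEquiv.mul_apply, inv_mul_cancel, AlgEquiv.one_apply]
  obtain ⟨h0, hfix⟩ := hL _ hκ
  have hs : s = (g * φ * g⁻¹) ^ b * (((g * φ * g⁻¹) ^ b)⁻¹ * s) := by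
    rw [mul_inv_cancel_left]
  refine ⟨x, ?_⟩
  have h1 : c s = c ((g * φ * g⁻¹) ^ b) := by
    conv_lhs => rw [hs]
    rw [hc, h0, smul_zero, add_zero]
  have h2 : s • x = (g * φ * g⁻¹) ^ b • x := by
    conv_lhs => rw [hs]
    rw [mul_smul, hfix]
  rw [h1, h2, hpow]

end Cyclic

end Fermat.Agent.S56.Sel.Arith
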