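/-
S56 / block SEL-ARITH, node AR5: trace duality `Hom(ad⁰, μ_p) ≅ ad⁰ ⊗ det`.
-/
import Fermat.Agent.S56.Sel.Arith.Defs
import Fermat.Agent.S56.Count.Perfect
import Fermat.Agent.S55.Bridge.MuCoef

set_option autoImplicit false

namespace Fermat.Agent.S56.Sel.Arith

open Fermat.Agent.S55
open Fermat.Agent.S53 (M2 resMatOf)
open Matrix ExtCitation Polynomial

variable {k : Type} [Field k]

namespace Dual

/-- `t ↦ t • ζ` -/
noncomputable def eHom (p : ℕ) {C : Type} [AddCommGroup C] (ζ : C) (h : p • ζ = 0) : ZMod p →+ C :=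
  ZMod.lift p ⟨zmultiplesHom C ζ, by
    rw [zmultiplesHom_apply, natCast_zsmul]
    exact h⟩

theorem eHom_natCast (p : ℕ) {C : Type} [AddCommGroup C] (ζ : C) (h : p • ζ = 0) (n : ℕ) :
    eHom p ζ h (n : ZMod p) = n • ζ := by
  have h1 := ZMod.lift_coe p (⟨zmultiplesHom C ζ, by
    rw [zmultiplesHom_apply, natCast_zsmul]
    exact h⟩ : { f : ℤ →+ C // f p = 0 }) (n : ℤ)
  rw [Int.cast_natCast] at h1
  rw [eHom, h1]
  simp

theorem eHom_apply (p : ℕ) [NeZero p] {C : Type} [AddCommGroup C] (ζ : C) (h : p • ζ = 0)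
    (t : ZMod p) : eHom p ζ h t = t.val • ζ := by
  conv_lhs => rw [← ZMod.natCast_zmod_val t]
  rw [eHom_natCast]

theorem eHom_injective (p : ℕ) [Fact p.Prime] {C : Type} [AddCommGroup C] (ζ : C)
    (h : p • ζ = 0) (h0 : ζ ≠ 0) : Function.Injective (eHom p ζ h) := by
  rw [injective_iff_map_eq_zero]
  intro t ht
  by_contra ht0
  apply h0
  have h1 : eHom p ζ h (t⁻¹.val • t) = 0 := by rw [map_nsmul, ht, smul_zero]
  rw [nsmul_eq_mul, ZMod.natCast_zmod_val, inv_mul_cancel₀ ht0] at h1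
  have h2 := eHom_natCast p ζ h 1
  rw [Nat.cast_one, one_smul] at h2
  rw [← h2, h1]

variable (r : GQ →* M2 k) (p : ℕ) [Algebra (ZMod p) k]

/-- `Y ↦ (m ↦ Tr (tr (m Y)) • ζ)` -/
noncomputable def Phi (ζ : Mu p) (h : p • ζ = 0) : Ad0 r →+ Nd r p where
  toFun Y := HomMod.of
    { toFun := fun m => eHom p ζ h (Algebra.trace (ZMod p) k (m.mat * Y.mat).trace)
      map_zero' := by simp
      map_add' := fun a b => by simp [add_mul, Matrix.trace_add] }
  map_zero' := by
    apply HomMod.ext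
    intro m
    simp
  map_add' a b := by
    apply HomMod.ext
    intro m
    simp [mul_add, Matrix.trace_add]

theorem Phi_apply (ζ : Mu p) (h : p • ζ = 0) (Y m : Ad0 r) :
    Phi r p ζ h Y m = eHom p ζ h (Algebra.trace (ZMod p) k (m.mat * Y.mat).trace) := rfl

theorem eq_zero_of_trace (h2 : (2 : k) ≠ 0) (Y : M2 k) (hY : Y.trace = 0)
    (h : ∀ m : M2 k, m.trace = 0 → (m * Y).trace = 0) : Y = 0 := by
  have h1 := h !![0, 1; 0, 0] (by simp [Matrix.trace_fin_two])
  have h2' := h !![0, 0; 1, 0] (by simp [Matrix.trace_fin_two])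
  have h3 := h !![1, 0; 0, -1] (by simp [Matrix.trace_fin_two])
  simp only [Matrix.trace_fin_two, Matrix.mul_apply, Fin.sum_univ_two, Matrix.of_apply,
    Matrix.cons_val', Matrix.cons_val_zero, Matrix.cons_val_one, Matrix.cons_val_fin_one,
    zero_mul, one_mul, zero_add, add_zero, neg_mul] at h1 h2' h3
  rw [Matrix.trace_fin_two] at hY
  have h00 : Y 0 0 = 0 := by
    have : 2 * Y 0 0 = 0 := by linear_combination hY + h3
    exact (mul_eq_zero.1 this).resolve_left h2
  have h11 : Y 1 1 = 0 := by linear_combination hY - h00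
  ext i j
  fin_cases i <;> fin_cases j <;> simp [h00, h11, h1, h2']

theorem Phi_injective [Fact p.Prime] [Finite k] (h2 : (2 : k) ≠ 0) (ζ : Mu p) (h : p • ζ = 0)
    (h0 : ζ ≠ 0) : Function.Injective (Phi r p ζ h) := by
  rw [injective_iff_map_eq_zero]
  intro Y hY
  apply Ad0.ext
  rw [Ad0.mat_zero]
  apply eq_zero_of_trace h2 Y.mat Y.trace_mat
  intro m hm
  have : FiniteDimensional (ZMod p) k := Module.Finite.of_finite
  apply (traceForm_nondegenerate (ZMod p) k).1
  intro c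
  rw [Algebra.traceForm_apply]
  have hcm : (c • m).trace = 0 := by rw [Matrix.trace_smul, hm, smul_zero]
  have h1 : Phi r p ζ h Y (Ad0.mk (c • m) hcm) = 0 := by rw [hY]; rfl
  rw [Phi_apply, Ad0.mat_mk] at h1
  have h3 := eHom_injective p ζ h h0 (h1.trans (map_zero _).symm)
  rw [Matrix.smul_mul, Matrix.trace_smul, smul_eq_mul] at h3
  rw [mul_comm]
  exact h3

end Dual

theorem hasDual (p : ℕ) [Fact p.Prime] [CharP k p] [Finite k] (hp2 : p ≠ 2) (r : GQ →* M2 k)
    (hdet : ∀ g, (r g).det = ((((cycloChar p g : (ZMod p)ˣ) : ZMod p).val : ℕ) : k)) :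
    HasDual p r := by
  letI : Algebra (ZMod p) k := ZMod.algebra k p
  have hpp : p.Prime := Fact.out
  haveI : NeZero p := ⟨hpp.ne_zero⟩
  obtain ⟨ζ, h0, -, hpζ, hχ⟩ := Bridge.exists_generator_Mu p
  have h2 : (2 : k) ≠ 0 := by
    intro h
    have h1 : ((2 : ℕ) : k) = 0 := by exact_mod_cast h
    rw [CharP.cast_eq_zero_iff k p] at h1
    exact hp2 ((Nat.prime_dvd_prime_iff_eq hpp Nat.prime_two).1 h1)
  have hinj := Dual.Phi_injective r p h2 ζ hpζ h0
  obtain ⟨hfin, hcard⟩ := Count.card_homMod_le (A := Ad0 r) (C := Mu p) (Bridge.cardMu p)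
  have hbij : Function.Bijective (Dual.Phi r p ζ hpζ) := hinj.bijective_of_nat_card_le hcard
  let E : Ad0 r ≃+ Nd r p := AddEquiv.ofBijective (Dual.Phi r p ζ hpζ) hbij
  have hE : ∀ Y, E Y = Dual.Phi r p ζ hpζ Y := fun _ => rfl
  refine ⟨{ toFun := fun f => (E.symm f).mat
            map_zero' := by simp
            map_add' := fun a b => by simp }, ?_, ?_, ?_, ?_⟩
  · intro f f' hff
    exact E.symm.injective (Ad0.ext hff)
  · intro f
    exact (E.symm f).trace_mat
  · intro X hX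
    refine ⟨E (Ad0.mk X hX), ?_⟩
    show (E.symm (E (Ad0.mk X hX))).mat = X
    rw [E.symm_apply_apply, Ad0.mat_mk]
  · intro g f
    show (E.symm (g • f)).mat = (r g).det • (r g * (E.symm f).mat * r g⁻¹)
    set Y := E.symm f with hY
    have hf : f = E Y := by rw [hY, E.apply_symm_apply]
    have htr : ((r g).det • (r g * Y.mat * r g⁻¹)).trace = 0 := by
      rw [Matrix.trace_smul, Ad0.trace_conj, Y.trace_mat, smul_zero]
    have key : g • f = E (Ad0.mk _ htr) := by
      rw [hf, hE, hE]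
      apply HomMod.ext
      intro m
      rw [HomMod.smul_apply, Dual.Phi_apply, Dual.Phi_apply, Ad0.mat_mk, Ad0.mat_smul, inv_inv,
        Dual.eHom_apply, smul_comm, hχ g, ← mul_smul, ← Dual.eHom_natCast p ζ hpζ]
      congr 1
      rw [Matrix.mul_smul, Matrix.trace_smul, smul_eq_mul, hdet g,
        ← map_natCast (algebraMap (ZMod p) k), ← Algebra.smul_def, map_smul, smul_eq_mul]
      push_cast
      rw [ZMod.natCast_zmod_val, ZMod.natCast_zmod_val]
      have e : (r g⁻¹ * m.mat * r g * Y.mat).trace = (m.mat * (r g * Y.mat * r g⁻¹)).trace := by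
        rw [Matrix.trace_mul_comm, mul_assoc, mul_assoc, ← mul_assoc, Matrix.trace_mul_comm]
        simp only [mul_assoc]
      rw [e, mul_comm]
    rw [key, E.symm_apply_apply, Ad0.mat_mk]

end Fermat.Agent.S56.Sel.Arith
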