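/-
S56 / block SEL-ARITH (chief helper182), node AR8: consequences of `SameGen`.
-/
import Fermat.Agent.S56.Sel.Arith.Defs

set_option autoImplicit false

namespace Fermat.Agent.S56.Sel.Arith

open Fermat.Agent.S55
open Fermat.Agent.S53 (M2 resMatOf)
open Matrix ExtCitation Polynomial

variable {k : Type} [Field k]

namespace Gen

/-- Cayley-Hamilton for `2 × 2` matrices. -/
theorem mul_self_eq (A : M2 k) : A * A = A.trace • A - A.det • (1 : M2 k) := by
  ext i j
  fin_cases i <;> fin_cases j <;>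
    simp [Matrix.mul_apply, Fin.sum_univ_two, Matrix.trace_fin_two, Matrix.det_fin_two] <;> ring

/-- `dsc (c + e A) = e² dsc A`. -/
theorem dsc_affine (c e : k) (A : M2 k) : dsc (c • (1 : M2 k) + e • A) = e ^ 2 * dsc A := by
  simp only [dsc, Matrix.trace_fin_two, Matrix.det_fin_two, Matrix.add_apply, Matrix.smul_apply,
    Matrix.one_apply_eq, Matrix.one_apply_ne (show (0 : Fin 2) ≠ 1 by decide),
    Matrix.one_apply_ne (show (1 : Fin 2) ≠ 0 by decide), smul_eq_mul]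
  ring

theorem exists_pow_eq (A : M2 k) (j : ℕ) : ∃ c e : k, A ^ j = c • (1 : M2 k) + e • A := by
  induction j with
  | zero => exact ⟨1, 0, by simp⟩
  | succ j ih =>
    obtain ⟨c, e, h⟩ := ih
    refine ⟨-(e * A.det), c + e * A.trace, ?_⟩
    rw [pow_succ, h, add_mul, smul_mul_assoc, one_mul, smul_mul_assoc, mul_self_eq, smul_sub,
      smul_smul, smul_smul, add_smul, neg_smul]
    abel

theorem dsc_pow_eq_zero {A : M2 k} (h : dsc A = 0) (j : ℕ) : dsc (A ^ j) = 0 := by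
  obtain ⟨c, e, hj⟩ := exists_pow_eq A j
  rw [hj, dsc_affine, h, mul_zero]

theorem dsc_conj (C C' A : M2 k) (h : C' * C = 1) : dsc (C * A * C') = dsc A := by
  have h1 : (C * A * C').trace = A.trace := by
    rw [Matrix.trace_mul_comm, ← Matrix.mul_assoc, h, Matrix.one_mul]
  have h2 : (C * A * C').det = A.det := by
    have h3 : C'.det * C.det = 1 := by rw [← Matrix.det_mul, h, Matrix.det_one]
    rw [Matrix.det_mul, Matrix.det_mul]
    linear_combination A.det * h3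
  rw [dsc, dsc, h1, h2]

theorem inv_mul_mem_fixingSubgroup (L : IntermediateField ℚ Qb) {σ τ : GQ}
    (h : ∀ x ∈ L, σ x = τ x) : σ⁻¹ * τ ∈ L.fixingSubgroup := by
  rw [IntermediateField.mem_fixingSubgroup_iff]
  intro x hx
  rw [AlgEquiv.mul_apply, ← h x hx]
  exact AlgEquiv.symm_apply_apply σ x

end Gen

theorem dsc_ne_zero_of_sameGen (h2 : (2 : k) ≠ 0) (r : GQ →* M2 k) (L : IntermediateField ℚ Qb)
    (hL : ∀ σ ∈ L.fixingSubgroup, r σ = 1) {φ s : GQ} (h : SameGen L φ s)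
    (hs : dsc (r s) ≠ 0) : dsc (r φ) ≠ 0 := by
  obtain ⟨g, a, b, -, hb⟩ := h
  intro h0
  apply hs
  have h1 := hL _ (Gen.inv_mul_mem_fixingSubgroup L hb)
  have h3 : r s = r ((g * φ * g⁻¹) ^ b) := by
    have h4 : s = (g * φ * g⁻¹) ^ b * (((g * φ * g⁻¹) ^ b)⁻¹ * s) := by group
    conv_lhs => rw [h4]
    rw [map_mul, h1, mul_one]
  rw [h3, conj_pow, map_mul, map_mul, map_pow,
    Gen.dsc_conj _ _ _ (by rw [← map_mul, inv_mul_cancel, map_one])]
  exact Gen.dsc_pow_eq_zero h0 b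

theorem mem_Hn_of_sameGen (p n : ℕ) [Fact p.Prime] (L : IntermediateField ℚ Qb)
    (hL : L.fixingSubgroup ≤ Hn p n) {φ s : GQ} (h : SameGen L φ s) (hs : s ∈ Hn p n) :
    φ ∈ Hn p n := by
  obtain ⟨g, a, b, ha, -⟩ := h
  have hN : (Hn p n).Normal := by
    unfold Hn
    exact MonoidHom.normal_ker _
  have h1 : (s ^ a)⁻¹ * (g * φ * g⁻¹) ∈ Hn p n :=
    hL (Gen.inv_mul_mem_fixingSubgroup L fun x hx => (ha x hx).symm)
  have h2 : g * φ * g⁻¹ ∈ Hn p n := by
    have h3 := (Hn p n).mul_mem ((Hn p n).pow_mem hs a) h1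
    rwa [mul_inv_cancel_left] at h3
  have h4 := hN.conj_mem _ h2 g⁻¹
  have h5 : g⁻¹ * (g * φ * g⁻¹) * g⁻¹⁻¹ = φ := by group
  rwa [h5] at h4

end Fermat.Agent.S56.Sel.Arith
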