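/-
S56 / block SEL-ARITH (chief helper182), node AR9 (proof helper70): a common finite level.
-/
import Fermat.Agent.S56.Sel.Arith.Defs

set_option autoImplicit false

namespace Fermat.Agent.S56.Sel.Arith

open Fermat.Agent.S55
open Fermat.Agent.S53 (M2 resMatOf)
open Matrix ExtCitation Polynomial

variable {k : Type} [Field k]

namespace Level

/-- an element of `Hn p n` fixes the `p`-th roots of unity -/
theorem fix_of_mem_Hn {p n : ℕ} [Fact p.Prime] {σ : GQ} (hσ : σ ∈ Hn p n) (ζ : Qb)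
    (hζ : ζ ^ p = 1) : σ ζ = ζ := by
  have : NeZero (p ^ (n + 1)) := ⟨pow_ne_zero _ (Fact.out : p.Prime).ne_zero⟩
  have h1 : BR.cycN (p ^ (n + 1)) σ = 1 := hσ
  rw [BR.cycN_eq_one_iff] at h1
  apply h1
  rw [pow_succ', pow_mul, hζ, one_pow]

/-- an element of `Hn p n` acts trivially on `μ_p` -/
theorem smul_Mu_of_mem_Hn {p n : ℕ} [Fact p.Prime] {σ : GQ} (hσ : σ ∈ Hn p n) (x : Mu p) :
    σ • x = x := by
  apply (muSub p).incl_injective
  apply Bridge.Kx_val_injective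
  rw [GSub.incl_smul, Kx.val_smul]
  apply fix_of_mem_Hn hσ
  have hx : p • (muSub p).incl x = 0 := (muSub p).incl_mem x
  rw [← Bridge.Kx_val_nsmul, hx, Kx.val_zero]

/-- an element of the kernel of `r` acts trivially on `ad⁰` -/
theorem smul_Ad0_of_eq_one {r : GQ →* M2 k} {σ : GQ} (hσ : r σ = 1) (m : Ad0 r) : σ • m = m := by
  have h1 : r σ⁻¹ = 1 := by
    have h2 := Ad0.inv_mul_self (r := r) σ
    rwa [hσ, mul_one] at h2
  apply Ad0.ext
  rw [Ad0.mat_smul, hσ, h1, one_mul, mul_one]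

end Level

/-- a common finite level -/
theorem exists_level (p n : ℕ) [Fact p.Prime] (r : GQ →* M2 k)
    (hr : GaloisFactorsThroughFiniteLevel r) (c : GQ → Nd r p)
    (hlev : ∃ L : IntermediateField ℚ Qb, FiniteDimensional ℚ L ∧ ∀ σ ∈ L.fixingSubgroup, c σ = 0) :
    ∃ L : IntermediateField ℚ Qb, FiniteDimensional ℚ L ∧ L.fixingSubgroup ≤ Hn p n ∧
      (∀ σ ∈ L.fixingSubgroup, r σ = 1) ∧
      ∀ σ ∈ L.fixingSubgroup, c σ = 0 ∧ ∀ f : Nd r p, σ • f = f := by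
  have : NeZero (p ^ (n + 1)) := ⟨pow_ne_zero _ (Fact.out : p.Prime).ne_zero⟩
  obtain ⟨Lr, hLr, hr1⟩ := hr
  obtain ⟨Lc, hLc, hc1⟩ := hlev
  obtain ⟨F, hF, -, hF1⟩ := BR.cycN_level (p ^ (n + 1))
  have hfin : FiniteDimensional ℚ ↥(Lr ⊔ Lc ⊔ F) := by
    have : FiniteDimensional ℚ ↥(Lr ⊔ Lc) := IntermediateField.finiteDimensional_sup Lr Lc
    exact IntermediateField.finiteDimensional_sup (Lr ⊔ Lc) F
  have hleF : (Lr ⊔ Lc ⊔ F).fixingSubgroup ≤ F.fixingSubgroup :=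
    IntermediateField.fixingSubgroup_antitone le_sup_right
  have hleR : (Lr ⊔ Lc ⊔ F).fixingSubgroup ≤ Lr.fixingSubgroup :=
    IntermediateField.fixingSubgroup_antitone (le_sup_left.trans le_sup_left)
  have hleC : (Lr ⊔ Lc ⊔ F).fixingSubgroup ≤ Lc.fixingSubgroup :=
    IntermediateField.fixingSubgroup_antitone (le_sup_right.trans le_sup_left)
  have hH : (Lr ⊔ Lc ⊔ F).fixingSubgroup ≤ Hn p n := fun σ hσ => hF1 σ (hleF hσ)
  have hR : ∀ σ ∈ (Lr ⊔ Lc ⊔ F).fixingSubgroup, r σ = 1 := fun σ hσ =>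
    hr1 σ ((IntermediateField.mem_fixingSubgroup_iff _ _).1 (hleR hσ))
  refine ⟨Lr ⊔ Lc ⊔ F, hfin, hH, hR, fun σ hσ => ⟨hc1 σ (hleC hσ), fun f => ?_⟩⟩
  apply HomMod.ext
  intro m
  rw [HomMod.smul_apply, Level.smul_Mu_of_mem_Hn (hH hσ),
    Level.smul_Ad0_of_eq_one (hR σ⁻¹ (inv_mem hσ))]

end Fermat.Agent.S56.Sel.Arith
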