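/-
S56 / block SEL-ARITH : the `r`-version of the export (existence of Taylor-Wiles primes detecting a
given non trivial cocycle with values in `Nd r p = Hom(ad⁰, μ_p)`).
-/
import Fermat.Agent.S56.Sel.Arith.CoreOut
import Fermat.Agent.S56.Sel.Arith.Dual
import Fermat.Agent.S56.Sel.Arith.Cyclic
import Fermat.Agent.S56.Sel.Arith.Cheb
import Fermat.Agent.S56.Sel.Arith.Gen
import Fermat.Agent.S56.Sel.Arith.Level
import Fermat.Agent.S56.Sel.Arith.Transfer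
import Fermat.Agent.S48.GalBasic
import Fermat.Agent.Lib.Frobenius

set_option autoImplicit false

namespace Fermat.Agent.S56.Sel.Arith

open Fermat.Agent.S55
open Fermat.Agent.S53 (M2)
open Matrix ExtCitation Polynomial
open scoped Pointwise

variable {k : Type} [Field k]

/-- weak Chebotarev for ALL places and ALL Frobenius elements over `q`, with the inertia clause -/
theorem exists_prime_sameGen_unr (L : IntermediateField ℚ Qb) [FiniteDimensional ℚ L] (s : GQ)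
    (T : Finset ℕ) :
    ∃ q : ℕ, q.Prime ∧ q ∉ T ∧ ∀ P : ValuationSubring Qb, P.LiesOverPrime q →
      (∀ τ ∈ P.inertiaSubgroupIn ℚ, ∃ g : GQ, g * τ * g⁻¹ ∈ L.fixingSubgroup) ∧
      ∀ φ : GQ, P.IsFrobeniusAt φ q → SameGen L φ s := by
  obtain ⟨q, A, hq, hqT, hA, hin, hall⟩ :=
    Fermat.Agent.Lib.FrobDensity.exists_frobenius_generator' L s T
  refine ⟨q, hq, hqT, fun P hP => ?_⟩
  obtain ⟨g, hg⟩ := Units.exists_smul_eq_of_liesOver q hq P A hP hA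
  refine ⟨fun τ hτ => ⟨g, hin ?_⟩, fun φ hφ => ?_⟩
  · rw [← hg]
    exact Fermat.Agent.S48.mem_inertiaSubgroupIn_conj P τ g hτ
  · have h1 : A.IsFrobeniusAt (g * φ * g⁻¹) q := by
      rw [← hg]
      exact Cheb.isFrobeniusAt_conj P φ g q hφ
    obtain ⟨a, b, ha, hb⟩ := hall _ h1
    exact ⟨g, a, b, ha, hb⟩

/-- **EXPORT of SEL-ARITH**, matrix version. -/
theorem exists_tw_prime_r (p : ℕ) [Fact p.Prime] (hp2 : p ≠ 2) [Finite k] [CharP k p]
    (r : GQ →* M2 k) (hR : RepHyp p r) (hfin : GaloisFactorsThroughFiniteLevel r)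
    (c : GQ → Nd r p) (hc : ∀ g h, c (g * h) = c g + g • c h)
    (hlev : ∃ L : IntermediateField ℚ Qb, FiniteDimensional ℚ L ∧ ∀ σ ∈ L.fixingSubgroup, c σ = 0)
    (hnc : ¬ ∃ x, ∀ g, c g = g • x - x) (n : ℕ) (T : Finset ℕ) :
    ∃ q : ℕ, q.Prime ∧ q ∉ T ∧ p ^ (n + 1) ∣ q - 1 ∧
      ∀ P : ValuationSubring Qb, P.LiesOverPrime q →
        (∀ τ ∈ P.inertiaSubgroupIn ℚ, r τ = 1) ∧
        ∀ φ : GQ, P.IsFrobeniusAt φ q → dsc (r φ) ≠ 0 ∧ ¬ ∃ x, c φ = φ • x - x := by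
  have h2 : (2 : k) ≠ 0 := by
    intro h
    have h3 : ((2 : ℕ) : k) = 0 := by exact_mod_cast h
    rw [CharP.cast_eq_zero_iff k p 2] at h3
    exact hp2 ((Nat.prime_dvd_prime_iff_eq Fact.out Nat.prime_two).1 h3)
  obtain ⟨s, hsH, hsd, hsc⟩ :=
    exists_good_element p (coreOut p hp2) r hR (hasDual p hp2 r hR.det) c hc hnc n
  obtain ⟨L, hLf, hLH, hLr, hLc⟩ := exists_level p n r hfin c hlev
  obtain ⟨q, hq, hqT, hall⟩ := exists_prime_sameGen_unr L s (insert p T)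
  have hqp : q ≠ p := fun h => hqT (h ▸ Finset.mem_insert_self _ _)
  have hqT' : q ∉ T := fun h => hqT (Finset.mem_insert_of_mem h)
  obtain ⟨P₀, φ₀, hP₀, hφ₀⟩ := Fermat.Agent.Lib.Frobenius.exists_liesOverPrime_isFrobeniusAt q hq
  refine ⟨q, hq, hqT', ?_, fun P hP => ⟨fun τ hτ => ?_, fun φ hφ => ⟨?_, ?_⟩⟩⟩
  · exact dvd_sub_one_of_frob_mem_Hn p n hq hqp P₀ hP₀ hφ₀
      (mem_Hn_of_sameGen p n L hLH ((hall P₀ hP₀).2 φ₀ hφ₀) hsH)
  · obtain ⟨g, hg⟩ := (hall P hP).1 τ hτ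
    have h1 := hLr _ hg
    rw [map_mul, map_mul] at h1
    have h3 : r g⁻¹ * r g = 1 := by rw [← map_mul, inv_mul_cancel, map_one]
    have h4 : r g * r g⁻¹ = 1 := by rw [← map_mul, mul_inv_cancel, map_one]
    calc r τ = r g⁻¹ * (r g * r τ * r g⁻¹) * r g := by
          rw [mul_assoc (r g), ← mul_assoc (r g⁻¹), h3, one_mul, mul_assoc, h3, mul_one]
      _ = 1 := by rw [h1, mul_one, h3]
  · exact dsc_ne_zero_of_sameGen h2 r L hLr ((hall P hP).2 φ hφ) hsd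
  · exact fun h => hsc (locTriv_of_sameGen hc L hLc ((hall P hP).2 φ hφ) h)

end Fermat.Agent.S56.Sel.Arith
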