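/-
S56 / block SEL-ARITH (chief helper182), node AR1 (task SEL-AR1, helper99): trace, determinant and
discriminant of `resMatOf ρbar b σ` from the factorisation of the characteristic polynomial.
-/
import Fermat.Agent.S56.Sel.Arith.Defs

set_option autoImplicit false

namespace Fermat.Agent.S56.Sel.Arith

open Fermat.Agent.S55
open Fermat.Agent.S53 (M2 resMatOf)
open Matrix ExtCitation Polynomial

variable {k : Type} [Field k]

namespace Split

/-- comparison of the coefficients of two monic quadratic polynomials -/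
theorem coeff_eq {t d α β : k}
    (h : (X ^ 2 - C t * X + C d : k[X]) = (X - C α) * (X - C β)) : t = α + β ∧ d = α * β := by
  have e : ((X - C α) * (X - C β) : k[X]) = X ^ 2 - C (α + β) * X + C (α * β) := by
    rw [C_add, C_mul]
    ring
  rw [e] at h
  have h1 := congrArg (fun q : k[X] => q.coeff 1) h
  have h0 := congrArg (fun q : k[X] => q.coeff 0) h
  simp only [coeff_add, coeff_sub, coeff_X_pow, coeff_C_mul, coeff_X_one, coeff_X_zero, coeff_C_zero,
    coeff_C_succ, mul_one, mul_zero] at h1 h0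
  norm_num at h1 h0
  exact ⟨by linear_combination -h1, h0⟩

end Split

theorem trace_det_of_charpoly (ρbar : ResidualGaloisRep k) (b : Module.Basis (Fin 2) k ρbar.V)
    (σ : GQ) (α β : k) (h : LinearMap.charpoly (ρbar.ρ σ) = (X - C α) * (X - C β)) :
    (resMatOf ρbar b σ).trace = α + β ∧ (resMatOf ρbar b σ).det = α * β := by
  rw [← LinearMap.charpoly_toMatrix (ρbar.ρ σ) b, Matrix.charpoly_fin_two] at h
  exact Split.coeff_eq h

theorem charpoly_of_dsc (ρbar : ResidualGaloisRep k) (b : Module.Basis (Fin 2) k ρbar.V)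
    (σ : GQ) (hs : ∃ α β : k, LinearMap.charpoly (ρbar.ρ σ) = (X - C α) * (X - C β))
    (h : dsc (resMatOf ρbar b σ) ≠ 0) :
    ∃ α β : k, α ≠ β ∧ LinearMap.charpoly (ρbar.ρ σ) = (X - C α) * (X - C β) := by
  obtain ⟨α, β, hαβ⟩ := hs
  refine ⟨α, β, ?_, hαβ⟩
  rintro rfl
  obtain ⟨h1, h2⟩ := trace_det_of_charpoly ρbar b σ α α hαβ
  apply h
  rw [dsc, h1, h2]
  ring

end Fermat.Agent.S56.Sel.Arith
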