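/-
S56 / block SEL-ARITH : from the interface hypotheses `ResHyp p s` to `RepHyp p s`, and back from
the discriminant to `FrobDistinct`.
-/
import Fermat.Agent.S56.Interface
import Fermat.Agent.S56.Sel.Arith.Split
import Fermat.Agent.S55.Bridge.Dual

set_option autoImplicit false

namespace Fermat.Agent.S56.Sel.Arith

open Fermat.Agent.S55
open Fermat.Agent.S53 (M2)
open Matrix ExtCitation Polynomial

variable {k : Type} [Field k]

theorem repHyp_of_resHyp (p : ℕ) [Fact p.Prime] {s : GQ →* M2 k} (h : ResHyp p s) :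
    RepHyp p s where
  split g := by
    obtain ⟨α, β, hαβ⟩ := h.split g
    rw [Matrix.charpoly_fin_two] at hαβ
    exact ⟨α, β, Split.coeff_eq hαβ⟩
  irr := fun v hv => h.irr ⊤ (Or.inl rfl) v hv
  irr2 := fun G₁ hG v hv => h.irr G₁ (Or.inr hG) v hv
  det := fun g => h.det g _ (fun μ hμ => Bridge.cycloChar_spec g μ hμ)

theorem charpoly_of_dsc' (p : ℕ) {s : GQ →* M2 k} (h : ResHyp p s) (φ : GQ)
    (hd : dsc (s φ) ≠ 0) :
    ∃ α β : k, α ≠ β ∧ (s φ).charpoly = (X - C α) * (X - C β) := by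
  obtain ⟨α, β, hαβ⟩ := h.split φ
  refine ⟨α, β, ?_, hαβ⟩
  rintro rfl
  rw [Matrix.charpoly_fin_two] at hαβ
  obtain ⟨h1, h2⟩ := Split.coeff_eq hαβ
  apply hd
  rw [dsc, h1, h2]
  ring

end Fermat.Agent.S56.Sel.Arith
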