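/-
S56 / SEL-ARITH, last node (helper56): `SelStatement` (S56/Interface.lean) from the `r`-version of
`exists_tw_prime`.  This file: the translation into the language of `Hsm`, with the arithmetic
theorem as a hypothesis (`TwPrimeR`).
-/
import Fermat.Agent.S56.Interface
import Fermat.Agent.S56.Sel.Arith.Defs
import Fermat.Agent.S55.BR.LocalPlace

set_option autoImplicit false

namespace Fermat.Agent.S56.Sel.Arith

open Fermat.Agent.S55 Fermat.Agent.S56 Polynomial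
open Fermat.Agent.S53 (M2)

/-- The conclusion of `exists_tw_prime_r` for one cocycle. -/
def TwConcl {k : Type} [Field k] (p : ℕ) (r : GQ →* M2 k) (c : GQ → Nd r p) (n : ℕ)
    (T : Finset ℕ) : Prop :=
  ∃ q : ℕ, q.Prime ∧ q ∉ T ∧ p ^ (n + 1) ∣ q - 1 ∧
    ∀ P : ValuationSubring Qb, P.LiesOverPrime q →
      (∀ τ ∈ P.inertiaSubgroupIn ℚ, r τ = 1) ∧
      ∀ φ : GQ, P.IsFrobeniusAt φ q → dsc (r φ) ≠ 0 ∧ ¬ ∃ x, c φ = φ • x - x

variable {k : Type} [Field k]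

/-- a smooth cocycle vanishes on the fixing subgroup of a number field -/
theorem exists_level_field {S : Finset Nat.Primes} {A : Type} [AddCommGroup A]
    [DistribMulAction GQ A] (c : Coc (lvlS S) A) :
    ∃ L : IntermediateField ℚ Qb, FiniteDimensional ℚ L ∧ ∀ σ ∈ L.fixingSubgroup, c σ = 0 := by
  obtain ⟨N, ⟨F, hF, -, rfl⟩, h⟩ := c.level
  refine ⟨F, hF.1, fun σ hσ => ?_⟩
  have := h 1 σ hσ
  rwa [one_mul, c.map_one] at this

/-- if the localisation at `q` vanishes then `c φ ∈ (φ - 1) A` for all `φ` in the decomposition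
group of `Av q` -/
theorem exists_eq_of_locS_eq_zero {S : Finset Nat.Primes} {A : Type} [AddCommGroup A]
    [DistribMulAction GQ A] (c : Coc (lvlS S) A) (q : Nat.Primes)
    (h : locS S A q 1 c.cls = 0) {φ : GQ} (hφ : φ ∈ (Av q).decompositionSubgroup ℚ) :
    ∃ x : A, c φ = φ • x - x := by
  rw [Coc.locS_cls, Coc.cls_eq_zero_iff] at h
  obtain ⟨a, ha⟩ := h
  rw [← Dv_eq] at hφ
  obtain ⟨y, rfl⟩ := hφ
  exact ⟨(ResMod.toRes (ιv q)).symm a, ha y⟩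

/-- The translation. -/
theorem sel_of_twConcl {p : ℕ} (s : GQ →* M2 k)
    (hchar : ∀ φ : GQ, dsc (s φ) ≠ 0 →
      ∃ α β : k, α ≠ β ∧ (s φ).charpoly = (X - C α) * (X - C β))
    (S : Finset Nat.Primes) (c : Coc (lvlS S) (Nd s p)) (n : ℕ) (T : Finset ℕ)
    (h : TwConcl p s c n (T ∪ S.image (fun q : Nat.Primes => (q : ℕ)))) :
    ∃ q : Nat.Primes, (q : ℕ) ∉ T ∧ q ∉ S ∧ p ^ (n + 1) ∣ (q : ℕ) - 1 ∧ UnrAt s q ∧
      FrobDistinct s q ∧ locS S (Nd s p) q 1 c.cls ≠ 0 := by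
  obtain ⟨q, hq, hqT, hdvd, hP⟩ := h
  rw [Finset.mem_union, not_or] at hqT
  refine ⟨⟨q, hq⟩, hqT.1, fun hS => hqT.2 (Finset.mem_image.2 ⟨⟨q, hq⟩, hS, rfl⟩), hdvd,
    fun P hPq => (hP P hPq).1, fun P hPq φ hφ => hchar φ ((hP P hPq).2 φ hφ).1, fun h0 => ?_⟩
  obtain ⟨φ, hφ⟩ := exists_frobenius_Av ⟨q, hq⟩
  exact ((hP _ (Av_liesOverPrime ⟨q, hq⟩)).2 φ hφ).2
    (exists_eq_of_locS_eq_zero c ⟨q, hq⟩ h0 hφ.mem_decompositionSubgroup)

end Fermat.Agent.S56.Sel.Arith
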