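/-
S56 / SEL-ARITH, last node (helper56): `SelStatement` of `S56/Interface.lean`, verbatim.
-/
import Fermat.Agent.S56.Sel.Arith.StatementCore
import Fermat.Agent.S56.Sel.Arith.Main
import Fermat.Agent.S56.Sel.Arith.ResHyp

set_option autoImplicit false

namespace Fermat.Agent.S56.Sel.Arith

open Fermat.Agent.S55 Fermat.Agent.S56

/-- **SEL**: Taylor-Wiles primes detecting a given nonzero class of `H¹_S(ad⁰(1))`. -/
theorem selStatement : SelStatement := by
  intro k _ _ p _ _ hp2 s hs S b hb n T
  obtain ⟨c, rfl⟩ := Coc.exists_cls_eq b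
  have hnc : ¬ ∃ x, ∀ g, c g = g • x - x := fun h => hb ((Coc.cls_eq_zero_iff c).2 h)
  exact sel_of_twConcl s (fun φ hd => charpoly_of_dsc' p hs φ hd) S c n T
    (exists_tw_prime_r p hp2 s (repHyp_of_resHyp p hs) hs.fin c c.map_mul
      (exists_level_field c) hnc n _)

end Fermat.Agent.S56.Sel.Arith
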