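/-
S56 / block SEL-ARITH, node AR3: the determinant of the matrix representation is the mod `p`
cyclotomic character; the residue field has characteristic `p`.
-/
import Fermat.Agent.S56.Sel.Arith.Defs

set_option autoImplicit false

namespace Fermat.Agent.S56.Sel.Arith

open Fermat.Agent.S55
open Fermat.Agent.S53 (M2 resMatOf)
open Matrix ExtCitation Polynomial

variable {k : Type} [Field k]

/-- `p = 0` in `k` -/
theorem Det.natCast_eq_zero (p : ℕ) (ρbar : ResidualGaloisRep k)
    (hdet : (GaloisRepAdic.ofResidualGaloisRep ρbar).DetIsCyclotomic p) : (p : k) = 0 := by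
  have h := hdet.1
  rw [IsLocalRing.maximalIdeal_eq_bot] at h
  exact h

theorem det_eq_cycloChar (p : ℕ) [Fact p.Prime] (ρbar : ResidualGaloisRep k)
    (b : Module.Basis (Fin 2) k ρbar.V)
    (hdet : (GaloisRepAdic.ofResidualGaloisRep ρbar).DetIsCyclotomic p) (g : GQ) :
    (resMatOf ρbar b g).det = ((((cycloChar p g : (ZMod p)ˣ) : ZMod p).val : ℕ) : k) := by
  have h0 := Det.natCast_eq_zero p ρbar hdet
  have h := hdet.2 1 g ((cycloChar p g : (ZMod p)ˣ) : ZMod p).val (fun μ hμ => by
    rw [pow_one] at hμ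
    exact Bridge.cycloChar_spec g μ hμ)
  rw [pow_one, h0, Ideal.span_singleton_eq_bot.2 rfl, Ideal.mem_bot, sub_eq_zero] at h
  rw [Fermat.Agent.S53.resMatOf_apply, LinearMap.det_toMatrix]
  exact h

theorem charP_of_det (p : ℕ) [Fact p.Prime] (ρbar : ResidualGaloisRep k)
    (hdet : (GaloisRepAdic.ofResidualGaloisRep ρbar).DetIsCyclotomic p) : CharP k p :=
  (CharP.charP_iff_prime_eq_zero Fact.out).2 (Det.natCast_eq_zero p ρbar hdet)

end Fermat.Agent.S56.Sel.Arith
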