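/-
S56 / block SEL-ARITH (chief helper182), node AR2 (helper145): a stable line in `k²` gives a proper
stable subspace of `K ⊗ V`; so (absolute) irreducibility gives `NoLine`.
-/
import Fermat.Agent.S56.Sel.Arith.Defs

set_option autoImplicit false

namespace Fermat.Agent.S56.Sel.Arith

open Fermat.Agent.S55
open Fermat.Agent.S53 (M2 resMatOf)
open Matrix ExtCitation Polynomial
open scoped TensorProduct

variable {k : Type} [Field k]

namespace Irr

/-- an eigenvector of the matrix gives an eigenvector of the endomorphism -/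
theorem apply_eq_smul {V : Type} [AddCommGroup V] [Module k V] (b : Module.Basis (Fin 2) k V)
    (f : V →ₗ[k] V) (v : Fin 2 → k) (c : k) (h : LinearMap.toMatrix b b f *ᵥ v = c • v) :
    f (b.equivFun.symm v) = c • b.equivFun.symm v := by
  apply b.equivFun.injective
  have h1 := LinearMap.toMatrix_mulVec_repr b b f (b.equivFun.symm v)
  have h2 : (b.repr (b.equivFun.symm v) : Fin 2 → k) = v := by
    rw [← Module.Basis.equivFun_apply, LinearEquiv.apply_symm_apply]
  rw [h2, h] at h1
  rw [map_smul, LinearEquiv.apply_symm_apply, Module.Basis.equivFun_apply, ← h1]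

theorem one_tmul_ne_zero {V : Type} [AddCommGroup V] [Module k V] (b : Module.Basis (Fin 2) k V)
    (K : Type) [Field K] [Algebra k K] {w : V} (hw : w ≠ 0) : (1 : K) ⊗ₜ[k] w ≠ 0 := by
  intro h0
  apply hw
  apply b.repr.injective
  ext i
  have h1 := congrArg (fun t => (Algebra.TensorProduct.basis K b).repr t i) h0
  simp only [Algebra.TensorProduct.basis_repr_tmul, map_zero, one_smul, Finsupp.mapRange_apply,
    Finsupp.coe_zero, Pi.zero_apply] at h1
  rw [map_zero, Finsupp.coe_zero, Pi.zero_apply]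
  exact (map_eq_zero (algebraMap k K)).1 h1

/-- a stable line gives a proper stable subspace of the base change -/
theorem exists_stable (ρbar : ResidualGaloisRep k) (b : Module.Basis (Fin 2) k ρbar.V)
    (K : Type) [Field K] [Algebra k K] (G₁ : Subgroup GQ) (v : Fin 2 → k) (hv : v ≠ 0)
    (h : ∀ g ∈ G₁, ∃ c : k, resMatOf ρbar b g *ᵥ v = c • v) :
    ∃ V : Submodule K (ρbar.baseChange K).V,
      (∀ σ ∈ G₁, ∀ x ∈ V, (ρbar.baseChange K).ρ σ x ∈ V) ∧ V ≠ ⊥ ∧ V ≠ ⊤ := by
  set w : ρbar.V := b.equivFun.symm v with hw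
  have hw0 : w ≠ 0 := by
    intro h0
    apply hv
    have := congrArg b.equivFun h0
    rwa [hw, LinearEquiv.apply_symm_apply, map_zero] at this
  have ht0 : (1 : K) ⊗ₜ[k] w ≠ 0 := one_tmul_ne_zero b K hw0
  refine ⟨Submodule.span K {(1 : K) ⊗ₜ[k] w}, ?_, ?_, ?_⟩
  · intro σ hσ x hx
    obtain ⟨a, rfl⟩ := Submodule.mem_span_singleton.1 hx
    obtain ⟨c, hc⟩ := h σ hσ
    have h1 : ρbar.ρ σ w = c • w := apply_eq_smul b (ρbar.ρ σ) v c hc
    show (ρbar.ρ σ).baseChange K (a • (1 : K) ⊗ₜ[k] w) ∈ _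
    rw [map_smul, LinearMap.baseChange_tmul, h1, TensorProduct.tmul_smul,
      ← algebraMap_smul K c ((1 : K) ⊗ₜ[k] w)]
    exact Submodule.smul_mem _ _ (Submodule.smul_mem _ _ (Submodule.mem_span_singleton_self _))
  · intro hbot
    rw [Submodule.span_singleton_eq_bot] at hbot
    exact ht0 hbot
  · intro htop
    have h1 : Module.finrank K (Submodule.span K {(1 : K) ⊗ₜ[k] w}) = 1 :=
      finrank_span_singleton ht0
    rw [htop, finrank_top] at h1
    have h2 : Module.finrank K (K ⊗[k] ρbar.V) = 2 := (ρbar.baseChange K).finrank_eq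
    omega

end Irr

theorem noLine_top (ρbar : ResidualGaloisRep k) (b : Module.Basis (Fin 2) k ρbar.V)
    (habs : ρbar.IsAbsolutelyIrreducible) : NoLine (resMatOf ρbar b) ⊤ := by
  intro v hv
  by_contra hcon
  push Not at hcon
  obtain ⟨V, hst, hbot, htop⟩ := Irr.exists_stable ρbar b (AlgebraicClosure k) ⊤ v hv hcon
  rcases habs V (fun σ x hx => hst σ (Subgroup.mem_top σ) x hx) with h | h
  · exact hbot h
  · exact htop h

theorem noLine_index_two (ρbar : ResidualGaloisRep k) (b : Module.Basis (Fin 2) k ρbar.V)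
    (hTW : ∀ (K : Type) [Field K] [Algebra k K] (G : Subgroup GQ), G.index = 2 →
      ∀ V : Submodule K (ρbar.baseChange K).V,
        (∀ σ ∈ G, ∀ x ∈ V, (ρbar.baseChange K).ρ σ x ∈ V) → V = ⊥ ∨ V = ⊤)
    (G₁ : Subgroup GQ) (hG : G₁.index = 2) : NoLine (resMatOf ρbar b) G₁ := by
  intro v hv
  by_contra hcon
  push Not at hcon
  obtain ⟨V, hst, hbot, htop⟩ := Irr.exists_stable ρbar b k G₁ v hv hcon
  rcases hTW k G₁ hG V hst with h | h
  · exact hbot h
  · exact htop h

end Fermat.Agent.S56.Sel.Arith
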