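/-
S56 / block SEL-ARITH (chief helper182), node AR10 (helper266): from `Nd`-valued cocycles to matrix
valued twisted cocycles.
-/
import Fermat.Agent.S56.Sel.Arith.Defs

set_option autoImplicit false

namespace Fermat.Agent.S56.Sel.Arith

open Fermat.Agent.S55
open Fermat.Agent.S53 (M2 resMatOf)
open Matrix ExtCitation Polynomial

variable {k : Type} [Field k]

theorem exists_good_element (p : ℕ) [Fact p.Prime] (hcore : CoreOut p k) (r : GQ →* M2 k)
    (hr : RepHyp p r) (hΨ : HasDual p r) (c : GQ → Nd r p)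
    (hc : ∀ g h, c (g * h) = c g + g • c h) (hnc : ¬ ∃ x, ∀ g, c g = g • x - x) (n : ℕ) :
    ∃ s ∈ Hn p n, dsc (r s) ≠ 0 ∧ ¬ LocTriv c s := by
  obtain ⟨Ψ, hinj, htr, hsurj, heq⟩ := hΨ
  have hcoc : IsTwCoc r (fun g => Ψ (c g)) :=
    ⟨fun g => htr _, fun g h => by rw [hc, map_add, heq]⟩
  have hncob : ¬ IsTwCob r (fun g => Ψ (c g)) := by
    rintro ⟨X, hX, h⟩
    obtain ⟨x, rfl⟩ := hsurj X hX
    refine hnc ⟨x, fun g => hinj ?_⟩
    rw [map_sub, heq]
    exact h g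
  obtain ⟨s, hs, hd, hX⟩ := hcore r n hr _ hcoc hncob
  refine ⟨s, hs, hd, ?_⟩
  rintro ⟨x, hx⟩
  apply hX (Ψ x)
  show Ψ (c s) = _
  rw [hx, map_sub, heq]

end Fermat.Agent.S56.Sel.Arith
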